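import Fermat.Agent.S38.IA.Gal.IAGalMain
import Fermat.Agent.S38.IA.H183.Closed
import Fermat.Agent.S38.H953.GalAdapter

/-!
# Row HARD (row 37, Ihara avoidance), cell GAL: the frozen leaf `IA.IAGalStatement`, CLOSED
(independent warm-box verification by helper833)

Pure plugging, no new mathematics:

* `relTWCob833 : Gal.RelTWCobStatement`  = helper183's `relTWPrimesCobFlat` / `relTWPrimesCobOrd`
  (`S38/IA/H183/Closed.lean`, unconditional: all leaves of row S56 and the four S55 inputs);
* `iaGalInt833 : Gal.IAGalStatement`     = helper1's `Gal.iaGal_of` (`S38/IA/Gal/IAGalMain.lean`);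
* `iaGal833 : IA.IAGalStatement`         = helper953's adapter `H953.iaGal_of_gal`
  (`S38/H953/GalAdapter.lean`), i.e. the frozen leaf of the trunk `S38/IA/Spec2.lean`, VERBATIM.

Nothing unproved in this file.
-/

set_option autoImplicit false

namespace Fermat.Agent.S38.IA.H833

/-- helper183's unframed relative Taylor–Wiles theorem, as the `Prop` consumed by helper1. -/
theorem relTWCob833 : Fermat.Agent.S38.IA.Gal.RelTWCobStatement :=
  fun 𝒪 _ _ _ _ _ p ρbar S Smin hyp T hT hdisj hsc =>
    ⟨Fermat.Agent.S38.IA.H183.relTWPrimesCobFlat 𝒪 p ρbar S Smin hyp T hT hdisj hsc,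
      Fermat.Agent.S38.IA.H183.relTWPrimesCobOrd 𝒪 p ρbar S Smin hyp T hT hdisj hsc⟩

/-- The integrator's output (helper1's `IAGalSpec`), unconditionally. -/
theorem iaGalInt833 : Fermat.Agent.S38.IA.Gal.IAGalStatement :=
  Fermat.Agent.S38.IA.Gal.iaGal_of relTWCob833

/-- **The frozen leaf GAL of the trunk (`S38/IA/Spec2.lean`), unconditionally.** -/
theorem iaGal833 : Fermat.Agent.S38.IA.IAGalStatement :=
  Fermat.Agent.S38.H953.iaGal_of_gal iaGalInt833

end Fermat.Agent.S38.IA.H833
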